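/-
PROJECT W (S52, the 3-5 switch), block T3 (one fibre with irreducible mod-3 representation),
leaf `T3/Apply/Simple` (helper3; the split of helper9, owner of `T3/HitRoot`).

**Hypothesis (H2) of the root-avoiding theorem `hitRoot_monic`: the roots of the quartic
`y⁴ + 18 A y² + 108 B y - 27 A²` are simple when `4 A³ + 27 B² ≠ 0` (characteristic `≠ 2, 3`).**

With `x = y / 3` the quartic is `27 ψ₃(x)`, `ψ₃ = 3x⁴ + 6Ax² + 12Bx - A²` the 3-division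
polynomial of `y² = x³ + A x + B`, and its derivative is `108 (x³ + A x + B)`; on a common zero
`ψ₃ = -(3x² + A)²`, so `A = -3x²`, `B = 2x³` and `4A³ + 27B² = 0`.  The proof below never divides.

* `quartic`, `quarticDeriv` : the two polynomial expressions (over any commutative ring);
* `quarticDeriv_ne_zero` : the field lemma, in the literal of the split;
* `quarticDeriv_ne_zero_hk` : at `A = 3h`, `B = 2k`, from `h³ + k² ≠ 0`;
* `two_ne_zero_zmod`, `three_ne_zero_zmod`, `cube_add_sq_ne_zero_zmod` : the three side conditions in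
  `ZMod p` from `¬ (p : ℤ) ∣ 6 * (h³ + k²)`;
* `quarticDeriv_ne_zero_zmod` : the corollary in `ZMod p` at the casts of `h k : ℤ`;
* `simple_roots_zmod` : the same as a statement about all `a : ZMod p` (the shape of `hsimple`).
-/
import Mathlib

set_option autoImplicit false

namespace Fermat.Agent.S52.T3.Apply.Simple

/-- the quartic `y⁴ + 18 A y² + 108 B y - 27 A²` (`= 27 ψ₃(y/3)` for `y² = x³ + A x + B`) -/
def quartic {R : Type*} [CommRing R] (A B y : R) : R :=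
  y ^ 4 + 18 * A * y ^ 2 + 108 * B * y - 27 * A ^ 2

/-- its derivative in `y` -/
def quarticDeriv {R : Type*} [CommRing R] (A B y : R) : R :=
  4 * y ^ 3 + 36 * A * y + 108 * B

theorem quartic_def {R : Type*} [CommRing R] (A B y : R) :
    quartic A B y = y ^ 4 + 18 * A * y ^ 2 + 108 * B * y - 27 * A ^ 2 := rfl

theorem quarticDeriv_def {R : Type*} [CommRing R] (A B y : R) :
    quarticDeriv A B y = 4 * y ^ 3 + 36 * A * y + 108 * B := rfl

/-- ring homomorphisms commute with the quartic -/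
theorem map_quartic {R S : Type*} [CommRing R] [CommRing S] (φ : R →+* S) (A B y : R) :
    φ (quartic A B y) = quartic (φ A) (φ B) (φ y) := by
  simp only [quartic, map_sub, map_add, map_mul, map_pow, map_ofNat]

/-- ring homomorphisms commute with the derivative of the quartic -/
theorem map_quarticDeriv {R S : Type*} [CommRing R] [CommRing S] (φ : R →+* S) (A B y : R) :
    φ (quarticDeriv A B y) = quarticDeriv (φ A) (φ B) (φ y) := by
  simp only [quarticDeriv, map_add, map_mul, map_pow, map_ofNat]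

/-- **(H2), the field lemma**: a root of the quartic is simple when `4A³ + 27B² ≠ 0`. -/
theorem quarticDeriv_ne_zero {F : Type*} [Field F] (h2 : (2 : F) ≠ 0) (h3 : (3 : F) ≠ 0)
    (A B y : F) (hdisc : 4 * A ^ 3 + 27 * B ^ 2 ≠ 0)
    (hy : y ^ 4 + 18 * A * y ^ 2 + 108 * B * y - 27 * A ^ 2 = 0) :
    4 * y ^ 3 + 36 * A * y + 108 * B ≠ 0 := by
  intro hd
  have h4 : (4 : F) ≠ 0 := by
    have h : (4 : F) = 2 * 2 := by norm_num
    rw [h]
    exact mul_ne_zero h2 h2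
  have h27 : (27 : F) ≠ 0 := by
    have h : (27 : F) = 3 * 3 * 3 := by norm_num
    rw [h]
    exact mul_ne_zero (mul_ne_zero h3 h3) h3
  have e1 : 27 * B + y ^ 3 + 9 * A * y = 0 := by
    have h : 4 * (27 * B + y ^ 3 + 9 * A * y) = 0 := by linear_combination hd
    exact (mul_eq_zero.1 h).resolve_left h4
  have e2 : (y ^ 2 + 3 * A) ^ 2 = 0 := by
    have h : 3 * (y ^ 2 + 3 * A) ^ 2 = 0 := by linear_combination (4 * y) * e1 - hy
    exact (mul_eq_zero.1 h).resolve_left h3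
  have e3 : y ^ 2 + 3 * A = 0 := (pow_eq_zero_iff two_ne_zero).1 e2
  have e4 : 27 * (4 * A ^ 3 + 27 * B ^ 2) = 0 := by
    linear_combination (27 * B - y ^ 3 - 9 * A * y) * e1 +
      (y ^ 4 + 15 * A * y ^ 2 + 36 * A ^ 2) * e3
  exact hdisc ((mul_eq_zero.1 e4).resolve_left h27)

/-- the same with the named expressions -/
theorem quarticDeriv_ne_zero' {F : Type*} [Field F] (h2 : (2 : F) ≠ 0) (h3 : (3 : F) ≠ 0)
    (A B y : F) (hdisc : 4 * A ^ 3 + 27 * B ^ 2 ≠ 0) (hy : quartic A B y = 0) :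
    quarticDeriv A B y ≠ 0 :=
  quarticDeriv_ne_zero h2 h3 A B y hdisc hy

/-- **(H2) at `A = 3h`, `B = 2k`** (`4A³ + 27B² = 108 (h³ + k²)`). -/
theorem quarticDeriv_ne_zero_hk {F : Type*} [Field F] (h2 : (2 : F) ≠ 0) (h3 : (3 : F) ≠ 0)
    (h k y : F) (hdisc : h ^ 3 + k ^ 2 ≠ 0)
    (hy : y ^ 4 + 18 * (3 * h) * y ^ 2 + 108 * (2 * k) * y - 27 * (3 * h) ^ 2 = 0) :
    4 * y ^ 3 + 36 * (3 * h) * y + 108 * (2 * k) ≠ 0 := by
  refine quarticDeriv_ne_zero h2 h3 (3 * h) (2 * k) y ?_ hy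
  have h108 : (108 : F) ≠ 0 := by
    have h : (108 : F) = 2 * 2 * (3 * 3 * 3) := by norm_num
    rw [h]
    exact mul_ne_zero (mul_ne_zero h2 h2) (mul_ne_zero (mul_ne_zero h3 h3) h3)
  have h : 4 * (3 * h) ^ 3 + 27 * (2 * k) ^ 2 = 108 * (h ^ 3 + k ^ 2) := by ring
  rw [h]
  exact mul_ne_zero h108 hdisc

/-! ### The side conditions in `ZMod p` -/

section zmod

variable (p : ℕ) [hp : Fact p.Prime]

theorem natCast_ne_zero_zmod {n : ℕ} (hn : ¬ (p : ℤ) ∣ (n : ℤ)) : ((n : ℕ) : ZMod p) ≠ 0 := by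
  intro h
  apply hn
  rw [ZMod.natCast_eq_zero_iff] at h
  exact Int.natCast_dvd_natCast.2 h

theorem intCast_ne_zero_zmod {n : ℤ} (hn : ¬ (p : ℤ) ∣ n) : ((n : ℤ) : ZMod p) ≠ 0 := by
  intro h
  exact hn ((ZMod.intCast_zmod_eq_zero_iff_dvd n p).1 h)

omit hp in
theorem not_dvd_of_not_dvd_mul {h k : ℤ} (hpd : ¬ (p : ℤ) ∣ 6 * (h ^ 3 + k ^ 2)) :
    ¬ (p : ℤ) ∣ 2 ∧ ¬ (p : ℤ) ∣ 3 ∧ ¬ (p : ℤ) ∣ h ^ 3 + k ^ 2 := by
  refine ⟨fun h2 => hpd ?_, fun h3 => hpd ?_, fun h1 => hpd (Dvd.dvd.mul_left h1 6)⟩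
  · exact Dvd.dvd.mul_right (Dvd.dvd.trans h2 ⟨3, by norm_num⟩) _
  · exact Dvd.dvd.mul_right (Dvd.dvd.trans h3 ⟨2, by norm_num⟩) _

theorem two_ne_zero_zmod {h k : ℤ} (hpd : ¬ (p : ℤ) ∣ 6 * (h ^ 3 + k ^ 2)) :
    (2 : ZMod p) ≠ 0 := by
  have h1 := intCast_ne_zero_zmod p (not_dvd_of_not_dvd_mul p hpd).1
  simpa using h1

theorem three_ne_zero_zmod {h k : ℤ} (hpd : ¬ (p : ℤ) ∣ 6 * (h ^ 3 + k ^ 2)) :
    (3 : ZMod p) ≠ 0 := by
  have h1 := intCast_ne_zero_zmod p (not_dvd_of_not_dvd_mul p hpd).2.1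
  simpa using h1

theorem cube_add_sq_ne_zero_zmod {h k : ℤ} (hpd : ¬ (p : ℤ) ∣ 6 * (h ^ 3 + k ^ 2)) :
    ((h : ℤ) : ZMod p) ^ 3 + ((k : ℤ) : ZMod p) ^ 2 ≠ 0 := by
  have h1 := intCast_ne_zero_zmod p (not_dvd_of_not_dvd_mul p hpd).2.2
  simpa using h1

/-- **(H2) in `ZMod p`** at the casts of `h k : ℤ`, for `p ∤ 6 (h³ + k²)`. -/
theorem quarticDeriv_ne_zero_zmod {h k : ℤ} (hpd : ¬ (p : ℤ) ∣ 6 * (h ^ 3 + k ^ 2)) (y : ZMod p)
    (hy : y ^ 4 + 18 * (3 * ((h : ℤ) : ZMod p)) * y ^ 2 + 108 * (2 * ((k : ℤ) : ZMod p)) * y -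
      27 * (3 * ((h : ℤ) : ZMod p)) ^ 2 = 0) :
    4 * y ^ 3 + 36 * (3 * ((h : ℤ) : ZMod p)) * y + 108 * (2 * ((k : ℤ) : ZMod p)) ≠ 0 :=
  quarticDeriv_ne_zero_hk (two_ne_zero_zmod p hpd) (three_ne_zero_zmod p hpd) _ _ y
    (cube_add_sq_ne_zero_zmod p hpd) hy

/-- **(H2) in `ZMod p`**, in the shape of `hsimple` (named expressions). -/
theorem simple_roots_zmod {h k : ℤ} (hpd : ¬ (p : ℤ) ∣ 6 * (h ^ 3 + k ^ 2)) :
    ∀ a : ZMod p, quartic (3 * ((h : ℤ) : ZMod p)) (2 * ((k : ℤ) : ZMod p)) a = 0 →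
      quarticDeriv (3 * ((h : ℤ) : ZMod p)) (2 * ((k : ℤ) : ZMod p)) a ≠ 0 :=
  fun a ha => quarticDeriv_ne_zero_zmod p hpd a ha

/-- the same for the images of `3 * h`, `2 * k : ℤ` under the cast (the shape produced by
`Int.castRingHom (ZMod p)` applied to integer coefficients) -/
theorem simple_roots_zmod_cast {h k : ℤ} (hpd : ¬ (p : ℤ) ∣ 6 * (h ^ 3 + k ^ 2)) :
    ∀ a : ZMod p, quartic (((3 * h : ℤ) : ℤ) : ZMod p) (((2 * k : ℤ) : ℤ) : ZMod p) a = 0 →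
      quarticDeriv (((3 * h : ℤ) : ℤ) : ZMod p) (((2 * k : ℤ) : ℤ) : ZMod p) a ≠ 0 := by
  intro a ha
  have e3 : (((3 * h : ℤ) : ℤ) : ZMod p) = 3 * ((h : ℤ) : ZMod p) := by push_cast; ring
  have e2 : (((2 * k : ℤ) : ℤ) : ZMod p) = 2 * ((k : ℤ) : ZMod p) := by push_cast; ring
  rw [e3, e2] at ha ⊢
  exact simple_roots_zmod p hpd a ha

end zmod

end Fermat.Agent.S52.T3.Apply.Simple
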