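import Fermat.Agent.S52.Seam
import Fermat.Agent.S52.T3.HitRoot
import Fermat.Agent.S52.T3.Apply.Simple

/-!
# PROJECT W (S52), T3: the application of `hitRoot_monic`, abstract in the polynomial

`exists_fibre_of_poly`: let `Gp : ℤ[X][X]` be a monic polynomial in `y` over `ℤ[u]` whose
specialisations are the quartic of the fibre at `t = M u` (integers), resp. the quartic of
`A = 3h`, `B = 2k` (modulo `p`, at `u = 0`), and which has no root in `ℚ[u]`.  If `h³ + k² ≠ 0`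
then some `t ∈ M ℤ` has a quartic without integer root.
-/

namespace Fermat.Agent.S52.T3.Apply

open Polynomial
open Fermat.Agent.S52.Seam
open Fermat.Agent.S52.KleinFamily
open Fermat.Agent.S52.T3.HitRoot

/-- A prime not dividing a given nonzero integer. -/
theorem exists_prime_not_dvd (n : ℤ) (hn : n ≠ 0) : ∃ p : ℕ, p.Prime ∧ ¬ (p : ℤ) ∣ n := by
  obtain ⟨p, hp1, hp2⟩ := Nat.exists_infinite_primes (n.natAbs + 1)
  refine ⟨p, hp2, fun hdvd => hn ?_⟩
  refine Int.eq_zero_of_abs_lt_dvd hdvd ?_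
  rw [Int.abs_eq_natAbs]
  exact_mod_cast (by omega : n.natAbs < p)

/-- The application of `hitRoot_monic`, abstract in the polynomial `Gp`. -/
theorem exists_fibre_of_poly (h k M : ℤ) (hdisc : h ^ 3 + k ^ 2 ≠ 0)
    (Gp : ℤ[X][X]) (hmonic : Gp.Monic)
    (hroot : ¬ ∃ Y : ℚ[X], Gp.eval₂ (mapRingHom (Int.castRingHom ℚ)) Y = 0)
    (hev : ∀ u y : ℤ, Gp.eval₂ (evalRingHom u) y
      = quartic (3 * Hf h k (M * u)) (2 * Tf h k (M * u)) y)
    (hred : ∀ (p : ℕ) [Fact p.Prime] (a : ZMod p),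
      Gp.eval₂ ((Int.castRingHom (ZMod p)).comp (evalRingHom 0)) a
        = Simple.quartic (3 * ((h : ℤ) : ZMod p)) (2 * ((k : ℤ) : ZMod p)) a)
    (hredD : ∀ (p : ℕ) [Fact p.Prime] (a : ZMod p),
      (derivative Gp).eval₂ ((Int.castRingHom (ZMod p)).comp (evalRingHom 0)) a
        = Simple.quarticDeriv (3 * ((h : ℤ) : ZMod p)) (2 * ((k : ℤ) : ZMod p)) a) :
    ∃ t : ℤ, M ∣ t ∧ ∀ y : ℤ, quartic (3 * Hf h k t) (2 * Tf h k t) y ≠ 0 := by
  obtain ⟨p, hp, hpd⟩ := exists_prime_not_dvd (6 * (h ^ 3 + k ^ 2))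
    (mul_ne_zero (by norm_num) hdisc)
  have : Fact p.Prime := ⟨hp⟩
  obtain ⟨n, -, hn⟩ := hitRoot_monic Gp hmonic hroot p 0
    (fun a ha => by
      rw [hredD p a]
      rw [hred p a] at ha
      exact Simple.simple_roots_zmod p hpd a ha) 0 0
  obtain ⟨s, -, hs⟩ := hn ∅ (by simp)
  refine ⟨M * (0 + (p : ℤ) ^ n * (s : ℤ)), Dvd.intro _ rfl, fun y => ?_⟩
  rw [← hev]
  exact hs y

end Fermat.Agent.S52.T3.Apply
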