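/-
PROJECT W (S52, the 3-5 switch), block T3 (one fibre with irreducible mod-3 representation),
leaf `T3/Apply/Poly` (helper10; the split of helper9, owner of `T3/HitRoot`).

**The quartic of the `W`-family as a polynomial `Gp : ℤ[X][X]`** (polynomials in `y` over `ℤ[u]`),
for given `h k M : ℤ`:

  `AM := 3 * Hf (C h) (C k) (C M * X)`, `BM := 2 * Tf (C h) (C k) (C M * X)` in `ℤ[X]`
  (helper21's `KleinFamily`, generic in the ring), and
  `Gp := X ^ 4 + C (18 * AM) * X ^ 2 + C (108 * BM) * X - C (27 * AM ^ 2)`,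

i.e. `Gp (u, y) = quartic (3 Hf(h, k, M u)) (2 Tf(h, k, M u)) y` with
`quartic A B y = y⁴ + 18 A y² + 108 B y - 27 A²` (`= 27 ψ₃(y / 3)` for `y² = x³ + A x + B`).

* `map_Hf`, `map_Tf`, `map_df` : ring homomorphisms commute with the three polynomials of the family;
* `Gp_monic`, `Gp_natDegree` : `Gp` is monic of degree `4` in `y`;
* `eval2_Gp`, `eval2_derivative_Gp` : for every ring homomorphism `φ : ℤ[X] →+* R` and `y : R` the
  values of `Gp` and of `derivative Gp` under `eval₂ φ y`, as the explicit quartic / its derivative at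
  `A = 3 Hf (h, k, M φ(X))`, `B = 2 Tf (h, k, M φ(X))` (casts of `h k M` into `R`);
* `eval2_Gp_int`, `eval2_derivative_Gp_int` : `φ = evalRingHom u`, `u : ℤ`;
* `eval2_Gp_zmod`, `eval2_derivative_Gp_zmod` (+ `_zero` forms at `u₀ = 0`, where `A = 3h`, `B = 2k`
  by `Hf_zero`, `Tf_zero`) : `φ = (Int.castRingHom (ZMod p)).comp (evalRingHom u₀)`;
* `eval2_Gp_rat` : `φ = mapRingHom (Int.castRingHom ℚ)`, `y = Y : ℚ[X]`;
* `exists_root_one_of_root` : the reparametrisation `u ↦ u / M` (`M ≠ 0`): a root `Y ∈ ℚ[X]` of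
  `Gp h k M` gives the root `Y (X / M)` of `Gp h k 1`.
-/
import Mathlib
import Fermat.Agent.S52.KleinFamily

set_option autoImplicit false

namespace Fermat.Agent.S52.T3.Apply.Poly

open Polynomial
open Fermat.Agent.S52.KleinFamily

section Naturality

variable {R S : Type*} [CommRing R] [CommRing S]

/-- ring homomorphisms commute with `Hf` -/
theorem map_Hf (φ : R →+* S) (h k t : R) : φ (Hf h k t) = Hf (φ h) (φ k) (φ t) := by
  simp only [Hf, hc0, hc1, hc2, hc3, hc4, hc5, hc6, hc7, hc8, hc9, hc10, hc11, hc12, hc13, hc14,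
    hc15, hc16, hc17, hc18, hc19, hc20, map_add, map_mul, map_pow, map_neg, map_ofNat, map_one]

/-- ring homomorphisms commute with `Tf` -/
theorem map_Tf (φ : R →+* S) (h k t : R) : φ (Tf h k t) = Tf (φ h) (φ k) (φ t) := by
  simp only [Tf, tc0, tc1, tc2, tc3, tc4, tc5, tc6, tc7, tc8, tc9, tc10, tc11, tc12, tc13, tc14,
    tc15, tc16, tc17, tc18, tc19, tc20, tc21, tc22, tc23, tc24, tc25, tc26, tc27, tc28, tc29, tc30,
    map_add, map_mul, map_pow, map_neg, map_ofNat, map_one]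

/-- ring homomorphisms commute with `df` -/
theorem map_df (φ : R →+* S) (h k t : R) : φ (df h k t) = df (φ h) (φ k) (φ t) := by
  simp only [df, dc0, dc1, dc2, dc3, dc4, dc5, dc6, dc7, dc8, dc9, dc10, dc11, dc12,
    map_add, map_mul, map_pow, map_neg, map_ofNat, map_one, map_zero]

end Naturality

/-- `A(M u) = 3 Hf (h, k, M u)` as a polynomial in `u` -/
noncomputable def AM (h k M : ℤ) : ℤ[X] := 3 * Hf (C h) (C k) (C M * X)

/-- `B(M u) = 2 Tf (h, k, M u)` as a polynomial in `u` -/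
noncomputable def BM (h k M : ℤ) : ℤ[X] := 2 * Tf (C h) (C k) (C M * X)

/-- the quartic `27 ψ₃(y / 3)` of the fibre at `t = M u`, as a polynomial in `y` over `ℤ[u]` -/
noncomputable def Gp (h k M : ℤ) : ℤ[X][X] :=
  X ^ 4 + C (18 * AM h k M) * X ^ 2 + C (108 * BM h k M) * X - C (27 * AM h k M ^ 2)

theorem Gp_def (h k M : ℤ) :
    Gp h k M =
      X ^ 4 + C (18 * AM h k M) * X ^ 2 + C (108 * BM h k M) * X - C (27 * AM h k M ^ 2) := rfl

theorem Gp_monic (h k M : ℤ) : (Gp h k M).Monic := by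
  unfold Gp
  monicity!

theorem Gp_natDegree (h k M : ℤ) : (Gp h k M).natDegree = 4 := by
  unfold Gp
  compute_degree!

section Eval

variable {R : Type*} [CommRing R]

/-- a ring homomorphism out of `ℤ[X]` sends the constant `C n` to the cast of `n` -/
theorem map_C_int (φ : ℤ[X] →+* R) (n : ℤ) : φ (C n) = (n : R) :=
  eq_intCast (φ.comp C) n

/-- the value of `AM` under a ring homomorphism -/
theorem map_AM (φ : ℤ[X] →+* R) (h k M : ℤ) :
    φ (AM h k M) = 3 * Hf (h : R) (k : R) ((M : R) * φ X) := by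
  simp only [AM, map_mul, map_ofNat, map_Hf, map_C_int]

/-- the value of `BM` under a ring homomorphism -/
theorem map_BM (φ : ℤ[X] →+* R) (h k M : ℤ) :
    φ (BM h k M) = 2 * Tf (h : R) (k : R) ((M : R) * φ X) := by
  simp only [BM, map_mul, map_ofNat, map_Tf, map_C_int]

/-- **the value of `Gp` under `eval₂ φ y`** -/
theorem eval2_Gp (φ : ℤ[X] →+* R) (h k M : ℤ) (y : R) :
    (Gp h k M).eval₂ φ y =
      y ^ 4 + 18 * (3 * Hf (h : R) (k : R) ((M : R) * φ X)) * y ^ 2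
        + 108 * (2 * Tf (h : R) (k : R) ((M : R) * φ X)) * y
        - 27 * (3 * Hf (h : R) (k : R) ((M : R) * φ X)) ^ 2 := by
  simp only [Gp, eval₂_sub, eval₂_add, eval₂_mul, eval₂_pow, eval₂_X, eval₂_C]
  simp only [map_mul, map_pow, map_ofNat, map_AM, map_BM]

/-- **the value of `derivative Gp` under `eval₂ φ y`** -/
theorem eval2_derivative_Gp (φ : ℤ[X] →+* R) (h k M : ℤ) (y : R) :
    (derivative (Gp h k M)).eval₂ φ y =
      4 * y ^ 3 + 36 * (3 * Hf (h : R) (k : R) ((M : R) * φ X)) * y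
        + 108 * (2 * Tf (h : R) (k : R) ((M : R) * φ X)) := by
  have hd : derivative (Gp h k M) =
      C 4 * X ^ 3 + C (36 * AM h k M) * X + C (108 * BM h k M) := by
    simp only [Gp, derivative_sub, derivative_add, derivative_mul, derivative_X_pow, derivative_C,
      derivative_X, zero_mul, zero_add, mul_one, sub_zero]
    simp only [map_mul, map_ofNat, Nat.cast_ofNat]
    ring
  rw [hd]
  simp only [eval₂_add, eval₂_mul, eval₂_pow, eval₂_X, eval₂_C]
  simp only [map_mul, map_ofNat, map_AM, map_BM]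

end Eval

section Int

/-- `φ = evalRingHom u`: the quartic of the fibre at `t = M u` -/
theorem eval2_Gp_int (h k M u y : ℤ) :
    (Gp h k M).eval₂ (evalRingHom u) y =
      y ^ 4 + 18 * (3 * Hf h k (M * u)) * y ^ 2 + 108 * (2 * Tf h k (M * u)) * y
        - 27 * (3 * Hf h k (M * u)) ^ 2 := by
  rw [eval2_Gp]
  simp only [coe_evalRingHom, eval_X, Int.cast_id]

theorem eval2_derivative_Gp_int (h k M u y : ℤ) :
    (derivative (Gp h k M)).eval₂ (evalRingHom u) y =
      4 * y ^ 3 + 36 * (3 * Hf h k (M * u)) * y + 108 * (2 * Tf h k (M * u)) := by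
  rw [eval2_derivative_Gp]
  simp only [coe_evalRingHom, eval_X, Int.cast_id]

end Int

section ZModp

variable (p : ℕ)

/-- `φ = (Int.castRingHom (ZMod p)).comp (evalRingHom u₀)` -/
theorem eval2_Gp_zmod (h k M u₀ : ℤ) (a : ZMod p) :
    (Gp h k M).eval₂ ((Int.castRingHom (ZMod p)).comp (evalRingHom u₀)) a =
      a ^ 4 + 18 * (3 * Hf (h : ZMod p) (k : ZMod p) ((M : ZMod p) * (u₀ : ZMod p))) * a ^ 2
        + 108 * (2 * Tf (h : ZMod p) (k : ZMod p) ((M : ZMod p) * (u₀ : ZMod p))) * a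
        - 27 * (3 * Hf (h : ZMod p) (k : ZMod p) ((M : ZMod p) * (u₀ : ZMod p))) ^ 2 := by
  rw [eval2_Gp]
  simp only [RingHom.comp_apply, coe_evalRingHom, eval_X, eq_intCast]

theorem eval2_derivative_Gp_zmod (h k M u₀ : ℤ) (a : ZMod p) :
    (derivative (Gp h k M)).eval₂ ((Int.castRingHom (ZMod p)).comp (evalRingHom u₀)) a =
      4 * a ^ 3 + 36 * (3 * Hf (h : ZMod p) (k : ZMod p) ((M : ZMod p) * (u₀ : ZMod p))) * a
        + 108 * (2 * Tf (h : ZMod p) (k : ZMod p) ((M : ZMod p) * (u₀ : ZMod p))) := by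
  rw [eval2_derivative_Gp]
  simp only [RingHom.comp_apply, coe_evalRingHom, eval_X, eq_intCast]

/-- at `u₀ = 0` the quartic is that of `A = 3h`, `B = 2k` -/
theorem eval2_Gp_zmod_zero (h k M : ℤ) (a : ZMod p) :
    (Gp h k M).eval₂ ((Int.castRingHom (ZMod p)).comp (evalRingHom 0)) a =
      a ^ 4 + 18 * (3 * (h : ZMod p)) * a ^ 2 + 108 * (2 * (k : ZMod p)) * a
        - 27 * (3 * (h : ZMod p)) ^ 2 := by
  rw [eval2_Gp_zmod]
  simp only [Int.cast_zero, mul_zero, Hf_zero, Tf_zero]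

theorem eval2_derivative_Gp_zmod_zero (h k M : ℤ) (a : ZMod p) :
    (derivative (Gp h k M)).eval₂ ((Int.castRingHom (ZMod p)).comp (evalRingHom 0)) a =
      4 * a ^ 3 + 36 * (3 * (h : ZMod p)) * a + 108 * (2 * (k : ZMod p)) := by
  rw [eval2_derivative_Gp_zmod]
  simp only [Int.cast_zero, mul_zero, Hf_zero, Tf_zero]

end ZModp

section Rat

/-- `φ = mapRingHom (Int.castRingHom ℚ)`, `y = Y : ℚ[X]` -/
theorem eval2_Gp_rat (h k M : ℤ) (Y : ℚ[X]) :
    (Gp h k M).eval₂ (mapRingHom (Int.castRingHom ℚ)) Y =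
      Y ^ 4 + 18 * (3 * Hf (C (h : ℚ)) (C (k : ℚ)) (C (M : ℚ) * X)) * Y ^ 2
        + 108 * (2 * Tf (C (h : ℚ)) (C (k : ℚ)) (C (M : ℚ) * X)) * Y
        - 27 * (3 * Hf (C (h : ℚ)) (C (k : ℚ)) (C (M : ℚ) * X)) ^ 2 := by
  rw [eval2_Gp]
  simp only [coe_mapRingHom, map_X, map_intCast]

/-- **the reparametrisation `u ↦ u / M`**: a root in `ℚ[X]` of the quartic of the family along
`t = M u` gives a root in `ℚ[X]` of the quartic of the family along `t` itself. -/
theorem exists_root_one_of_root (h k M : ℤ) (hM : M ≠ 0)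
    (hY : ∃ Y : ℚ[X], (Gp h k M).eval₂ (mapRingHom (Int.castRingHom ℚ)) Y = 0) :
    ∃ Y : ℚ[X], (Gp h k 1).eval₂ (mapRingHom (Int.castRingHom ℚ)) Y = 0 := by
  obtain ⟨Y, hY⟩ := hY
  have hMq : (M : ℚ) ≠ 0 := Int.cast_ne_zero.2 hM
  set q : ℚ[X] := C ((M : ℚ)⁻¹) * X with hq
  have hX : C (M : ℚ) * q = C ((1 : ℤ) : ℚ) * X := by
    rw [hq, ← mul_assoc, ← C_mul, mul_inv_cancel₀ hMq, Int.cast_one]
  have hH : compRingHom q (Hf (C (h : ℚ)) (C (k : ℚ)) (C (M : ℚ) * X)) =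
      Hf (C (h : ℚ)) (C (k : ℚ)) (C ((1 : ℤ) : ℚ) * X) := by
    rw [map_Hf, ← hX]
    simp only [coe_compRingHom, mul_comp, C_comp, X_comp]
  have hT : compRingHom q (Tf (C (h : ℚ)) (C (k : ℚ)) (C (M : ℚ) * X)) =
      Tf (C (h : ℚ)) (C (k : ℚ)) (C ((1 : ℤ) : ℚ) * X) := by
    rw [map_Tf, ← hX]
    simp only [coe_compRingHom, mul_comp, C_comp, X_comp]
  refine ⟨compRingHom q Y, ?_⟩
  rw [eval2_Gp_rat] at hY ⊢
  have hcomp := congrArg (compRingHom q) hY
  simp only [map_zero, map_sub, map_add, map_mul, map_pow, map_ofNat, hH, hT] at hcomp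
  exact hcomp

end Rat

end Fermat.Agent.S52.T3.Apply.Poly
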